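import Mathlib
import Fermat.Prelude.Def_FLTPrelim_FreyPackage
import Fermat.Prelude.Def_FLTPrelim_GaloisRep
import Fermat.Prelude.Def_FLTPrelim_Modularity
import Fermat.Prelude.Def_FLTPrelim_ModularRep
import Fermat.Prelude.Def_FLTPrelim_Ramification
import Fermat.Prelude.Def_WeierstrassCurve_Mlc1RowStatement

/-!
# Wiring for S60 (modularity of semistable curves)

Everything here is sorry-free and depends only on Mathlib + Prelude.  The deep inputs
(irreducibility at 3 or 5, Langlands--Tunnell, the 3--5 switch, modularity lifting)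
enter as *hypotheses*, shaped exactly like the frozen statements S51, S52, S59 and a
level-normalised form of S50.
-/

set_option autoImplicit false

namespace Fermat.Agent.S60

open WeierstrassCurve

/-- Exact-conductor-level modularity of an integral model gives modularity over `ℚ`. -/
theorem isModular_of_mlc1 (W : WeierstrassCurve ℤ)
    (h : Mlc1IsModularModelOfExactConductorLevel W) :
    (W.map (Int.castRingHom ℚ)).IsModular := by
  obtain ⟨N, hN, -, -, hmod⟩ := h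
  exact ⟨W, ⟨1, one_smul _ _⟩, N, hN, hmod⟩

/-- A squarefree number is not divisible by the square of a prime. -/
theorem not_sq_dvd_of_squarefree {N p : ℕ} (hN : Squarefree N) (hp : p.Prime) :
    ¬ p ^ 2 ∣ N := by
  intro h
  have h1 : p * p ∣ N := by simpa [pow_two] using h
  have := hN p h1
  exact hp.one_lt.ne' (Nat.isUnit_iff.mp this)

/-- A squarefree number is not divisible by the cube of a prime. -/
theorem not_cube_dvd_of_squarefree {N p : ℕ} (hN : Squarefree N) (hp : p.Prime) :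
    ¬ p ^ 3 ∣ N := fun h =>
  not_sq_dvd_of_squarefree hN hp (dvd_trans (pow_dvd_pow p (by norm_num)) h)

/-- Congruence transfer: if `W'` is modular of exact conductor level and the traces of
Frobenius of `W` and `W'` agree modulo `p` at the common good primes `ℓ ≠ p`, then `W` is
residually modular at `p` of a squarefree level. -/
theorem residuallyModular_of_congruent {p : ℕ} (hp : p.Prime) (W W' : WeierstrassCurve ℤ)
    (hW' : Mlc1IsModularModelOfExactConductorLevel W')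
    (hcong : ∀ ℓ : ℕ, ℓ.Prime → W.IsGoodPrimeFor ℓ → W'.IsGoodPrimeFor ℓ → ℓ ≠ p →
      (p : ℤ) ∣ (W'.apOfModel ℓ - W.apOfModel ℓ)) :
    ∃ M : ℕ, 0 < M ∧ Squarefree M ∧ W.IsResiduallyModularOfLevel p M := by
  obtain ⟨N, hN, hsq, hiff, f, hf, hfa⟩ := hW'
  obtain ⟨𝔪, h𝔪max, hp𝔪⟩ := FLTPrelim.exists_maximalIdeal_natCast_prime_mem hp
  refine ⟨N, hN, hsq, f, 𝔪, hf, h𝔪max, hp𝔪, ?_⟩
  intro ℓ hℓ hgood hℓN hℓp
  have hgood' : W'.IsGoodPrimeFor ℓ := fun hdvd => hℓN ((hiff ℓ hℓ).mpr hdvd)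
  refine ⟨((W'.apOfModel ℓ : ℤ) : integralClosure ℤ ℂ), ?_, ?_⟩
  · rw [hfa ℓ hℓ hgood' hℓN]
    simp
  · obtain ⟨k, hk⟩ := hcong ℓ hℓ hgood hgood' hℓp
    have : ((W'.apOfModel ℓ : ℤ) : integralClosure ℤ ℂ) -
        ((W.apOfModel ℓ : ℤ) : integralClosure ℤ ℂ) =
        (p : integralClosure ℤ ℂ) * ((k : ℤ) : integralClosure ℤ ℂ) := by
      rw [← Int.cast_sub, hk]
      push_cast
      rfl
    rw [this]
    exact Ideal.mul_mem_right _ _ hp𝔪

/-- The shape of the frozen statement S51. -/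
def Irr35 : Prop :=
  ∀ W : WeierstrassCurve ℤ, W.Δ ≠ 0 → W.IsSemistableModel →
    W.ModRepIsIrreducible 3 ∨ W.ModRepIsIrreducible 5

/-- The shape of the frozen statement S52. -/
def Switch35 : Prop :=
  ∀ W : WeierstrassCurve ℤ, W.Δ ≠ 0 → W.IsSemistableModel → W.ModRepIsIrreducible 5 →
    ∃ W' : WeierstrassCurve ℤ, W'.Δ ≠ 0 ∧ W'.IsSemistableModel ∧ W'.ModRepIsIrreducible 3 ∧
      ∀ ℓ : ℕ, ℓ.Prime → W.IsGoodPrimeFor ℓ → W'.IsGoodPrimeFor ℓ → ℓ ≠ 5 →
        (5 : ℤ) ∣ (W'.apOfModel ℓ - W.apOfModel ℓ)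

/-- The shape of the frozen statement S59. -/
def Lifting35 : Prop :=
  ∀ (p : ℕ), p = 3 ∨ p = 5 →
    ∀ (W : WeierstrassCurve ℤ), W.Δ ≠ 0 → W.IsSemistableModel → W.ModRepIsIrreducible p →
    ∀ (M₀ : ℕ) [NeZero M₀], W.IsResiduallyModularOfLevel p M₀ →
      ¬ p ^ 2 ∣ M₀ → (∀ q : ℕ, q.Prime → q ≠ p → ¬ q ^ 3 ∣ M₀) →
      Mlc1IsModularModelOfExactConductorLevel W

/-- Langlands--Tunnell with the level already normalised at `3`
(what S59 needs as input at `p = 3`). -/
def LT3Normalised : Prop :=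
  ∀ W : WeierstrassCurve ℤ, W.Δ ≠ 0 → W.IsSemistableModel → W.ModRepIsIrreducible 3 →
    ∃ M : ℕ, 0 < M ∧ W.IsResiduallyModularOfLevel 3 M ∧ ¬ 3 ^ 2 ∣ M ∧
      ∀ q : ℕ, q.Prime → q ≠ 3 → ¬ q ^ 3 ∣ M

/-- Modularity at exact conductor level when `ρ̄₃` is irreducible. -/
theorem mlc1_of_irr3 (hLT : LT3Normalised) (hlift : Lifting35)
    (W : WeierstrassCurve ℤ) (hΔ : W.Δ ≠ 0) (hW : W.IsSemistableModel)
    (h3 : W.ModRepIsIrreducible 3) : Mlc1IsModularModelOfExactConductorLevel W := by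
  obtain ⟨M, hM, hres, h9, hcube⟩ := hLT W hΔ hW h3
  haveI : NeZero M := ⟨hM.ne'⟩
  exact hlift 3 (Or.inl rfl) W hΔ hW h3 M hres h9 hcube

/-- Modularity at exact conductor level when `ρ̄₅` is irreducible (the 3--5 switch). -/
theorem mlc1_of_irr5 (hLT : LT3Normalised) (hlift : Lifting35) (hsw : Switch35)
    (W : WeierstrassCurve ℤ) (hΔ : W.Δ ≠ 0) (hW : W.IsSemistableModel)
    (h5 : W.ModRepIsIrreducible 5) : Mlc1IsModularModelOfExactConductorLevel W := by
  obtain ⟨W', hΔ', hW', h3', hcong⟩ := hsw W hΔ hW h5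
  have hmod' := mlc1_of_irr3 hLT hlift W' hΔ' hW' h3'
  obtain ⟨M, hM, hsq, hres⟩ :=
    residuallyModular_of_congruent (p := 5) (by norm_num) W W' hmod' hcong
  haveI : NeZero M := ⟨hM.ne'⟩
  exact hlift 5 (Or.inr rfl) W hΔ hW h5 M hres
    (not_sq_dvd_of_squarefree hsq (by norm_num))
    (fun q hq _ => not_cube_dvd_of_squarefree hsq hq)

/-- The wiring: S51 + S52 + S59 + level-normalised Langlands--Tunnell give S60
(indeed modularity at exact conductor level). -/
theorem mlc1_of_semistable (hirr : Irr35) (hLT : LT3Normalised) (hlift : Lifting35)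
    (hsw : Switch35) (W : WeierstrassCurve ℤ) (hΔ : W.Δ ≠ 0) (hW : W.IsSemistableModel) :
    Mlc1IsModularModelOfExactConductorLevel W := by
  rcases hirr W hΔ hW with h3 | h5
  · exact mlc1_of_irr3 hLT hlift W hΔ hW h3
  · exact mlc1_of_irr5 hLT hlift hsw W hΔ hW h5

theorem isModular_of_semistable (hirr : Irr35) (hLT : LT3Normalised) (hlift : Lifting35)
    (hsw : Switch35) (W : WeierstrassCurve ℤ) (hΔ : W.Δ ≠ 0) (hW : W.IsSemistableModel) :
    (W.map (Int.castRingHom ℚ)).IsModular :=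
  isModular_of_mlc1 W (mlc1_of_semistable hirr hLT hlift hsw W hΔ hW)

end Fermat.Agent.S60
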